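import Fermat.Agent.ClassField.Basic
import Mathlib.NumberTheory.LSeries.PrimesInAP
import Mathlib.RingTheory.Frobenius

/-!
# The Artin map of a subfield of a cyclotomic field

For `F` inside the cyclotomic field `K` of level `n` the map `(ℤ/n)ˣ → Gal(F/ℚ)` is onto, sends
every prime `p ∤ n` to the Frobenius at each prime above it, and its kernel consists of the classes
of the norms of the ideals prime to `n`.
-/

set_option autoImplicit false
set_option linter.style.haveILetI false
set_option linter.unusedSectionVars false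

noncomputable section

open NumberField IsCyclotomicExtension

namespace FA.ClassField

open FA.AbelianZeta (levelMap fieldGroup decomposition frobClass)

/-- The prime number below a prime of norm prime to `n`. -/
theorem exists_prime_liesOver {m : ℕ} {E : Type*} [Field E] [NumberField E] (P : Ideal (𝓞 E))
    [P.IsPrime] (hP : P ≠ ⊥) (h : (Ideal.absNorm P).Coprime m) :
    ∃ p : ℕ, p.Prime ∧ P.LiesOver (Ideal.span {(p : ℤ)}) ∧ p.Coprime m := by
  have hN : Ideal.absNorm P ≠ 0 := fun e => hP (Ideal.absNorm_eq_zero_iff.mp e)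
  have hmem := Ideal.absNorm_mem P
  rw [← Nat.prod_primeFactorsList hN, ← Multiset.prod_coe, Nat.cast_multiset_prod,
    Ideal.IsPrime.multiset_prod_mem_iff_exists_mem ‹P.IsPrime›] at hmem
  obtain ⟨a, ha, haP⟩ := hmem
  obtain ⟨p, hp, rfl⟩ := Multiset.mem_map.mp ha
  rw [Multiset.mem_coe] at hp
  have hpp := Nat.prime_of_mem_primeFactorsList hp
  exact ⟨p, hpp, (Ideal.liesOver_span_iff ‹P.IsPrime›.ne_top (Nat.prime_iff_prime_int.mp hpp)).mpr
    (by exact_mod_cast haP), h.coprime_dvd_left (Nat.dvd_of_mem_primeFactorsList hp)⟩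

variable (n : ℕ) [NeZero n] (K : Type*) [Field K] [NumberField K]
  [IsCyclotomicExtension {n} ℚ K] [IsAbelianGalois ℚ K]
  (F : IntermediateField ℚ K) [IsGalois ℚ F]

/-- The Artin map. -/
def artHom : (ZMod n)ˣ →* Gal(F/ℚ) :=
  (AlgEquiv.restrictNormalHom F).comp (Rat.galEquivZMod n K).symm.toMonoidHom

theorem artHom_surjective : Function.Surjective (artHom n K F) :=
  (AlgEquiv.restrictNormalHom_surjective K).comp (MulEquiv.surjective _)

theorem artHom_galEquiv (σ : Gal(K/ℚ)) :
    artHom n K F (Rat.galEquivZMod n K σ) = σ.restrictNormal F := by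
  show AlgEquiv.restrictNormalHom F ((Rat.galEquivZMod n K).symm (Rat.galEquivZMod n K σ)) = _
  rw [MulEquiv.symm_apply_apply]
  rfl

theorem ker_artHom : (artHom n K F).ker = normGroup n K F := by
  ext u
  obtain ⟨σ, rfl⟩ := (Rat.galEquivZMod n K).surjective u
  rw [galEquiv_mem_normGroup, ← IntermediateField.restrictNormalHom_ker, MonoidHom.mem_ker,
    MonoidHom.mem_ker, artHom_galEquiv]
  rfl

theorem card_quotient_norm (p : ℕ) [hp : Fact p.Prime] (hpn : p.Coprime n) :
    (Ideal.span {(p : ℤ)}).inertiaDegIn (𝓞 F) = orderOf (artHom n K F (ZMod.unitOfCoprime p hpn)) ∧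
      ((Ideal.span {(p : ℤ)}).primesOver (𝓞 F)).ncard *
        orderOf (artHom n K F (ZMod.unitOfCoprime p hpn)) = Module.finrank ℚ F := by
  have hn : n = p ^ 0 * n := by rw [pow_zero, one_mul]
  have hm : ¬ p ∣ n := hp.out.coprime_iff_not_dvd.mp hpn
  obtain ⟨hf, hg⟩ := decomposition n K hn hm F
  have hG : fieldGroup n K hn F = (artHom n K F).ker := by
    rw [ker_artHom, fieldGroup_eq n K hn F,
      show ZMod.unitsMap _ = MonoidHom.id (ZMod n)ˣ from ZMod.unitsMap_self n, Subgroup.map_id]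
  have ho : orderOf (frobClass n K hn hm F) =
      orderOf (artHom n K F (ZMod.unitOfCoprime p hpn)) := by
    refine orderOf_eq_orderOf_iff.mpr fun j => ?_
    rw [frobClass, ← map_pow, ← map_pow]
    show (((ZMod.unitOfCoprime p hpn) ^ j : (ZMod n)ˣ) : (ZMod n)ˣ ⧸ fieldGroup n K hn F) = 1 ↔ _
    rw [QuotientGroup.eq_one_iff, hG, MonoidHom.mem_ker]
  rw [ho] at hf hg
  refine ⟨hf, hg.trans ?_⟩
  rw [← Subgroup.index_eq_card, hG, ker_artHom, index_normGroup]

/-- **Frobenius**: the Artin map at `p` is a Frobenius element at every prime above `p`. -/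
theorem isArithFrobAt_artHom {p : ℕ} [hp : Fact p.Prime] (hpn : p.Coprime n) (P : Ideal (𝓞 F))
    [P.IsPrime] (hP : (p : 𝓞 F) ∈ P) :
    IsArithFrobAt ℤ (artHom n K F (ZMod.unitOfCoprime p hpn)) P := by
  haveI : IsGalois ℚ K := IsCyclotomicExtension.isGalois {n} ℚ K
  haveI hpZ : P.LiesOver (Ideal.span {(p : ℤ)}) :=
    (Ideal.liesOver_span_iff ‹P.IsPrime›.ne_top (Nat.prime_iff_prime_int.mp hp.out)).mpr
      (by exact_mod_cast hP)
  haveI : (Ideal.span {(p : ℤ)}).IsMaximal := Ideal.IsPrime.isMaximal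
    ((Ideal.span_singleton_prime (by exact_mod_cast hp.out.ne_zero)).mpr
      (Nat.prime_iff_prime_int.mp hp.out))
    (by simp [hp.out.ne_zero])
  haveI : P.IsMaximal := .of_liesOver_isMaximal P (Ideal.span {(p : ℤ)})
  obtain ⟨⟨Q, hQ₁, hQ₂⟩⟩ := P.nonempty_primesOver (S := 𝓞 K)
  haveI : Q.IsMaximal := .of_liesOver_isMaximal Q P
  haveI : Q.LiesOver (Ideal.span {(p : ℤ)}) := Ideal.LiesOver.trans Q P _
  haveI : Finite (𝓞 K ⧸ Q) := Ring.HasFiniteQuotients.finiteQuotient (NeZero.ne Q)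
  obtain ⟨τ, hτ⟩ := IsArithFrobAt.exists_of_isInvariant ℤ Gal(K/ℚ) Q
  have hcard : Nat.card (ℤ ⧸ Q.under ℤ) = p := by
    rw [← Ideal.over_def Q (Ideal.span {(p : ℤ)}), Int.card_ideal_quot]
  -- it is `p` in `(ℤ/n)ˣ`
  have hgal : Rat.galEquivZMod n K τ = ZMod.unitOfCoprime p hpn := by
    have hζ := (IsCyclotomicExtension.zeta_spec n ℚ K).toInteger_isPrimitiveRoot
    have hnQ : ((n : ℕ) : 𝓞 K) ∉ Q := fun h => by
      have h' : ((n : ℤ)) ∈ Q.under ℤ := Ideal.mem_comap.mpr (by simpa using h)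
      rw [← Ideal.over_def Q (Ideal.span {(p : ℤ)}), Ideal.mem_span_singleton,
        Int.natCast_dvd_natCast] at h'
      exact hp.out.coprime_iff_not_dvd.mp hpn h'
    have e := AlgHom.IsArithFrobAt.apply_of_pow_eq_one hτ hζ.pow_eq_one hnQ
    rw [hcard, MulSemiringAction.toAlgHom_apply,
      Rat.galEquivZMod_smul_of_pow_eq n K τ hζ.pow_eq_one,
      (hζ.isOfFinOrder (NeZero.ne n)).pow_inj_mod, ← hζ.eq_orderOf,
      ← ZMod.natCast_eq_natCast_iff', ZMod.natCast_zmod_val] at e
    exact Units.ext (e.trans (ZMod.coe_unitOfCoprime p hpn).symm)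
  rw [← hgal]
  intro x
  have hPQ : P.under ℤ = Q.under ℤ := by
    rw [← Ideal.over_def Q (Ideal.span {(p : ℤ)}), ← Ideal.over_def P (Ideal.span {(p : ℤ)})]
  rw [hPQ, hcard, MulSemiringAction.toAlgHom_apply]
  rw [artHom_galEquiv, Ideal.over_def Q P, Ideal.mem_comap]
  have h := hτ (algebraMap (𝓞 F) (𝓞 K) x)
  rw [hcard, MulSemiringAction.toAlgHom_apply] at h
  rw [map_sub, map_pow]
  convert h using 2
  exact RingOfIntegers.ext (AlgEquiv.restrictNormal_commutes τ F (x : F))

/-- **The kernel of the Artin map is the group of norms.** -/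
theorem artHom_eq_one_iff (u : (ZMod n)ˣ) :
    artHom n K F u = 1 ↔ ∃ I : Ideal (𝓞 F), (Ideal.absNorm I).Coprime n ∧
      ((Ideal.absNorm I : ℕ) : ZMod n) = u := by
  constructor
  · intro hu
    obtain ⟨p, hp, hpu⟩ := (Nat.infinite_setOfPred_prime_and_eq_mod (a := (u : ZMod n)) u.isUnit).nonempty
    haveI := Fact.mk hp
    have hpn : p.Coprime n := (ZMod.isUnit_iff_coprime p n).mp (hpu ▸ u.isUnit)
    have huu : ZMod.unitOfCoprime p hpn = u := Units.ext hpu
    obtain ⟨hf, -⟩ := card_quotient_norm n K F p hpn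
    rw [huu, hu, orderOf_one] at hf
    haveI : (Ideal.span {(p : ℤ)}).IsMaximal := Ideal.IsPrime.isMaximal
      ((Ideal.span_singleton_prime (by exact_mod_cast hp.ne_zero)).mpr
        (Nat.prime_iff_prime_int.mp hp))
      (by simp [hp.ne_zero])
    obtain ⟨⟨P, hP₁, hP₂⟩⟩ := (Ideal.span {(p : ℤ)}).nonempty_primesOver (S := 𝓞 F)
    haveI : P.IsMaximal := .of_liesOver_isMaximal P (Ideal.span {(p : ℤ)})
    have hnorm : Ideal.absNorm P = p := by
      rw [← Ideal.pow_inertiaDeg p P,
        ← Ideal.inertiaDegIn_eq_inertiaDeg (Ideal.span {(p : ℤ)}) P Gal(F/ℚ), hf, pow_one]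
    exact ⟨P, by rw [hnorm]; exact hpn, by rw [hnorm]; exact hpu⟩
  · rintro ⟨I, hI, hIu⟩
    suffices key : ∀ J : Ideal (𝓞 F), ∀ h : (Ideal.absNorm J).Coprime n,
        artHom n K F (ZMod.unitOfCoprime _ h) = 1 by
      rw [show u = ZMod.unitOfCoprime _ hI from Units.ext hIu.symm]
      exact key I hI
    intro J
    induction J using UniqueFactorizationMonoid.induction_on_prime with
    | h₁ =>
      intro h
      have hn1 : n = 1 := by simpa using h
      subst hn1
      rw [Subsingleton.elim (ZMod.unitOfCoprime _ h) 1, map_one]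
    | h₂ J hJ =>
      intro h
      rw [show ZMod.unitOfCoprime _ h = 1 from Units.ext (by
        simp [Ideal.absNorm_top, Ideal.isUnit_iff.mp hJ]), map_one]
    | h₃ J P _ hP ih =>
      intro h
      have h' := h
      rw [map_mul, Nat.coprime_mul_iff_left] at h'
      rw [show ZMod.unitOfCoprime _ h = ZMod.unitOfCoprime _ h'.1 * ZMod.unitOfCoprime _ h'.2 from
        Units.ext (by simp), map_mul, ih h'.2, mul_one]
      haveI : P.IsPrime := Ideal.isPrime_of_prime hP
      obtain ⟨p, hp, hpP⟩ := exists_prime_liesOver P hP.ne_zero h'.1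
      haveI := Fact.mk hp
      haveI : (Ideal.span {(p : ℤ)}).IsMaximal := Ideal.IsPrime.isMaximal
        ((Ideal.span_singleton_prime (by exact_mod_cast hp.ne_zero)).mpr
          (Nat.prime_iff_prime_int.mp hp))
        (by simp [hp.ne_zero])
      haveI := hpP.1
      haveI : P.IsMaximal := .of_liesOver_isMaximal P (Ideal.span {(p : ℤ)})
      obtain ⟨hf, -⟩ := card_quotient_norm n K F p hpP.2
      rw [show ZMod.unitOfCoprime _ h'.1 =
        ZMod.unitOfCoprime p hpP.2 ^ (Ideal.span {(p : ℤ)}).inertiaDegIn (𝓞 F) from Units.ext (by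
          rw [ZMod.coe_unitOfCoprime, Units.val_pow_eq_pow_val, ZMod.coe_unitOfCoprime,
            Ideal.inertiaDegIn_eq_inertiaDeg (Ideal.span {(p : ℤ)}) P Gal(F/ℚ),
            ← Ideal.pow_inertiaDeg p P, Nat.cast_pow]), map_pow, hf, pow_orderOf_eq_one]

end FA.ClassField

end
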