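import Fermat.Agent.AbelianZeta.Local
import Mathlib.NumberTheory.NumberField.Discriminant.Different
import Mathlib.NumberTheory.RamificationInertia.Unramified

/-!
# Cyclotomic fields containing an abelian field, and ramification

For a subfield `F` of a cyclotomic field `K` of level `n`: `F` embeds in the field of level `N ∣ n`
iff the kernel of reduction modulo `N` fixes `F`, and the prime `p` does not divide the discriminant
of `F` iff the kernel of reduction modulo the part of `n` prime to `p` fixes `F`.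
-/

set_option autoImplicit false
set_option linter.style.haveILetI false
set_option linter.unusedSectionVars false

noncomputable section

open NumberField IsCyclotomicExtension

namespace FA.ClassField

open FA.AbelianZeta (levelMap fieldGroup decomposition frobClass)

/-- A cyclotomic field of level `N` maps into every field with a root of unity of order `N`. -/
theorem exists_algHom_of_primitiveRoot (N : ℕ) [NeZero N] (C : Type*) [Field C] [Algebra ℚ C]
    [IsCyclotomicExtension {N} ℚ C] {K : Type*} [Field K] [Algebra ℚ K] {μ : K}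
    (hμ : IsPrimitiveRoot μ N) : Nonempty (C →ₐ[ℚ] K) := by
  haveI : CharZero K := charZero_of_injective_algebraMap (algebraMap ℚ K).injective
  have hζ := IsCyclotomicExtension.zeta_spec N ℚ C
  refine ⟨(hζ.powerBasis ℚ).lift μ ?_⟩
  rw [IsPrimitiveRoot.powerBasis_gen]
  haveI : CharZero C := charZero_of_injective_algebraMap (algebraMap ℚ C).injective
  rw [← hζ.minpoly_eq_cyclotomic_of_irreducible (Polynomial.cyclotomic.irreducible_rat (NeZero.pos N)),
    Polynomial.aeval_def, Polynomial.eval₂_eq_eval_map, Polynomial.map_cyclotomic,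
    ← Polynomial.IsRoot.def, Polynomial.isRoot_cyclotomic_iff]
  exact hμ

/-- A cyclotomic field maps into one of a multiple of its level. -/
theorem exists_algHom_of_dvd {n N : ℕ} [NeZero n] (h : N ∣ n) (C : Type*) [Field C] [Algebra ℚ C]
    [IsCyclotomicExtension {N} ℚ C] (K : Type*) [Field K] [Algebra ℚ K]
    [IsCyclotomicExtension {n} ℚ K] : Nonempty (C →ₐ[ℚ] K) := by
  haveI : NeZero N := ⟨fun e => NeZero.ne n (by simpa [e] using h)⟩
  obtain ⟨c, hc⟩ := h
  exact exists_algHom_of_primitiveRoot N C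
    ((IsCyclotomicExtension.zeta_spec n ℚ K).pow (NeZero.pos n) (by rw [hc, mul_comm] : n = c * N))

/-- Two kernels of reduction generate that of the greatest common divisor. -/
theorem ker_gcd_le {L a b : ℕ} [NeZero L] (ha : a ∣ L) (hb : b ∣ L)
    {H : Subgroup (ZMod L)ˣ} (h1 : (ZMod.unitsMap ha).ker ≤ H) (h2 : (ZMod.unitsMap hb).ker ≤ H) :
    (ZMod.unitsMap ((Nat.gcd_dvd_left a b).trans ha)).ker ≤ H := by
  intro x hx
  haveI : NeZero a := ⟨fun e => NeZero.ne L (by simpa [e] using ha)⟩
  haveI : NeZero b := ⟨fun e => NeZero.ne L (by simpa [e] using hb)⟩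
  haveI : NeZero (Nat.lcm a b) := ⟨Nat.lcm_ne_zero (NeZero.ne a) (NeZero.ne b)⟩
  have hx' : (1 : ℕ) ≡ (x : ZMod L).val [MOD a.gcd b] := by
    have h := congrArg Units.val (MonoidHom.mem_ker.mp hx)
    rw [ZMod.unitsMap_val, ← ZMod.natCast_val, Units.val_one, ← Nat.cast_one,
      ZMod.natCast_eq_natCast_iff] at h
    exact h.symm
  obtain ⟨y, hy1, hy2⟩ := Nat.chineseRemainder' hx'
  have hxb : ((x : ZMod L).val).Coprime b :=
    (ZMod.val_coe_unit_coprime x).coprime_dvd_right hb
  have hcop : y.Coprime (a * b) := Nat.Coprime.mul_right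
    (by rw [Nat.Coprime, hy1.gcd_eq, Nat.gcd_one_left])
    (by rw [Nat.Coprime, hy2.gcd_eq]; exact hxb)
  have hd : Nat.lcm a b ∣ L := Nat.lcm_dvd ha hb
  obtain ⟨u, hu⟩ := ZMod.unitsMap_surjective hd
    (ZMod.unitOfCoprime y (hcop.coprime_dvd_right (Nat.lcm_dvd_mul a b)))
  have key : ∀ {d : ℕ} (hdl : d ∣ Nat.lcm a b) (hdL : d ∣ L),
      ((ZMod.unitsMap hdL u : (ZMod d)ˣ) : ZMod d) = (y : ZMod d) := fun {d} hdl hdL => by
    rw [← ZMod.unitsMap_comp hdl hd, MonoidHom.comp_apply, hu, ZMod.unitsMap_val,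
      ZMod.coe_unitOfCoprime, ZMod.cast_natCast hdl]
  have hua : ZMod.unitsMap ha u = 1 := Units.ext (by
    rw [key (Nat.dvd_lcm_left a b), Units.val_one, ← Nat.cast_one, ZMod.natCast_eq_natCast_iff]
    exact hy1)
  have hub : ZMod.unitsMap hb u = ZMod.unitsMap hb x := Units.ext (by
    rw [key (Nat.dvd_lcm_right a b), ZMod.unitsMap_val, ← ZMod.natCast_val,
      ZMod.natCast_eq_natCast_iff]
    exact hy2)
  have hker : u⁻¹ * x ∈ (ZMod.unitsMap hb).ker := by
    rw [MonoidHom.mem_ker, map_mul, map_inv, hub, inv_mul_cancel]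
  have := mul_mem (h1 (MonoidHom.mem_ker.mpr hua)) (h2 hker)
  rwa [mul_inv_cancel_left] at this

variable (n : ℕ) [NeZero n] (K : Type*) [Field K] [NumberField K]
  [IsCyclotomicExtension {n} ℚ K] [IsAbelianGalois ℚ K]

/-- The group of `F` in `(ℤ/n)ˣ`. -/
def normGroup (F : IntermediateField ℚ K) : Subgroup (ZMod n)ˣ :=
  F.fixingSubgroup.map (Rat.galEquivZMod n K).toMonoidHom

theorem galEquiv_mem_normGroup {F : IntermediateField ℚ K} {σ : Gal(K/ℚ)} :
    Rat.galEquivZMod n K σ ∈ normGroup n K F ↔ σ ∈ F.fixingSubgroup := by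
  refine ⟨fun ⟨τ, hτ, h⟩ => ?_, fun h => ⟨σ, h, rfl⟩⟩
  exact (Rat.galEquivZMod n K).injective h ▸ hτ

/-- **The subfield of level `N`**: `F` maps into the cyclotomic field of level `N ∣ n` iff the
kernel of reduction modulo `N` fixes it. -/
theorem admissible_iff {N : ℕ} (hN : N ∣ n) (C : Type*) [Field C] [Algebra ℚ C]
    [IsCyclotomicExtension {N} ℚ C] (F : IntermediateField ℚ K) :
    Nonempty (F →ₐ[ℚ] C) ↔ (ZMod.unitsMap hN).ker ≤ normGroup n K F := by
  haveI : NeZero N := ⟨fun e => NeZero.ne n (by simpa [e] using hN)⟩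
  haveI : IsAbelianGalois ℚ F := IsAbelianGalois.tower_bot ℚ F K
  obtain ⟨c, hc⟩ := id hN
  set μ : K := zeta n ℚ K ^ c
  have hμ : IsPrimitiveRoot μ N :=
    (IsCyclotomicExtension.zeta_spec n ℚ K).pow (NeZero.pos n) (by rw [hc, mul_comm])
  have hfix : ∀ σ : Gal(K/ℚ), ZMod.unitsMap hN (Rat.galEquivZMod n K σ) = 1 ↔ σ μ = μ := fun σ => by
    rw [Rat.galEquivZMod_apply_of_pow_eq n K σ
      (show μ ^ n = 1 by rw [(hμ.pow_eq_one_iff_dvd n).mpr hN])]
    conv_rhs => rhs; rw [← pow_one μ]
    rw [(hμ.isOfFinOrder (NeZero.ne N)).pow_inj_mod, ← hμ.eq_orderOf,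
      ← ZMod.natCast_eq_natCast_iff', ZMod.natCast_val, Nat.cast_one, Units.ext_iff,
      ZMod.unitsMap_val, Units.val_one]
  constructor
  · rintro ⟨f⟩ u hu
    obtain ⟨σ, rfl⟩ := (Rat.galEquivZMod n K).surjective u
    refine (galEquiv_mem_normGroup n K).mpr
      ((IntermediateField.mem_fixingSubgroup_iff _ _).mpr fun x hx => ?_)
    obtain ⟨g⟩ := exists_algHom_of_primitiveRoot N C hμ
    have hσμ := (hfix σ).mp (MonoidHom.mem_ker.mp hu)
    have hg : ∀ y : C, σ (g y) = g y := fun y => by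
      induction IsCyclotomicExtension.adjoin_roots (S := {N}) (A := ℚ) y using
        Algebra.adjoin_induction with
      | mem b hb =>
        obtain ⟨m, rfl, -, hb⟩ := hb
        obtain ⟨i, -, hi⟩ := hμ.eq_pow_of_pow_eq_one (ξ := g b) (by rw [← map_pow, hb, map_one])
        rw [← hi, map_pow, hσμ]
      | algebraMap r => rw [AlgHom.commutes, AlgEquiv.commutes]
      | add a b _ _ ha hb => rw [map_add, map_add, ha, hb]
      | mul a b _ _ ha hb => rw [map_mul, map_mul, ha, hb]
    have hrange : (g.comp f).fieldRange = F := AlgHom.fieldRange_of_normal _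
    obtain ⟨y, rfl⟩ : x ∈ (g.comp f).fieldRange := by rwa [hrange]
    exact hg (f y)
  · intro h
    let M : IntermediateField ℚ K := IntermediateField.adjoin ℚ {μ}
    haveI : IsCyclotomicExtension {N} ℚ M := hμ.intermediateField_adjoin_isCyclotomicExtension ℚ
    have hle : F ≤ M := by
      rw [← IsGalois.fixedField_fixingSubgroup M, IntermediateField.le_iff_le]
      exact fun σ hσ => (galEquiv_mem_normGroup n K).mp (h (MonoidHom.mem_ker.mpr ((hfix σ).mpr
        ((IntermediateField.mem_fixingSubgroup_iff _ _).mp hσ μ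
          (IntermediateField.mem_adjoin_simple_self ℚ μ)))))
    exact ⟨(IsCyclotomicExtension.algEquiv {N} ℚ M C).toAlgHom.comp
      (IntermediateField.inclusion hle)⟩

theorem index_normGroup (F : IntermediateField ℚ K) :
    (normGroup n K F).index = Module.finrank ℚ F := by
  rw [IntermediateField.finrank_eq_fixingSubgroup_index]
  exact Subgroup.index_map_equiv F.fixingSubgroup (Rat.galEquivZMod n K)

theorem fieldGroup_eq {m : ℕ} {p k : ℕ} [Fact p.Prime] (hn : n = p ^ k * m) (F : IntermediateField ℚ K) :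
    fieldGroup n K hn F = (normGroup n K F).map (ZMod.unitsMap (hn ▸ dvd_mul_left m (p ^ k))) := by
  rw [normGroup, Subgroup.map_map]
  rfl

variable {p k m : ℕ} [hp : Fact p.Prime] (hn : n = p ^ k * m) (hm : ¬ p ∣ m)

include hn hm in
/-- **Ramification**: `p` does not divide the discriminant of `F` iff the kernel of reduction
modulo `m` fixes `F`. -/
theorem not_dvd_discr_iff (F : IntermediateField ℚ K) :
    ¬ (p : ℤ) ∣ discr F ↔
      (ZMod.unitsMap (hn ▸ dvd_mul_left m (p ^ k) : m ∣ n)).ker ≤ normGroup n K F := by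
  haveI : IsAbelianGalois ℚ F := IsAbelianGalois.tower_bot ℚ F K
  haveI : NeZero m := FA.AbelianZeta.ne_zero_level n hn
  set pZ := Ideal.span {(p : ℤ)} with hpZ
  set π := ZMod.unitsMap (hn ▸ dvd_mul_left m (p ^ k) : m ∣ n)
  set H := normGroup n K F
  obtain ⟨hf, hg⟩ := decomposition n K hn hm F
  haveI : pZ.IsMaximal := Ideal.IsPrime.isMaximal
    ((Ideal.span_singleton_prime (by exact_mod_cast hp.out.ne_zero)).mpr
      (Nat.prime_iff_prime_int.mp hp.out))
    (by simp [pZ, hp.out.ne_zero])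
  have h1 := Ideal.ncard_primesOver_mul_ramificationIdxIn_mul_inertiaDegIn pZ (𝓞 F) Gal(F/ℚ)
  rw [IsGalois.card_aut_eq_finrank, ← index_normGroup n K F, hf, mul_left_comm, hg,
    fieldGroup_eq n K hn F, ← Subgroup.index_eq_card, Subgroup.index_map,
    MonoidHom.range_eq_top.mpr (ZMod.unitsMap_surjective _), Subgroup.index_top, mul_one] at h1
  have he : pZ.ramificationIdxIn (𝓞 F) = 1 ↔ π.ker ≤ H := by
    refine ⟨fun h => ?_, fun h => ?_⟩
    · rw [h, one_mul] at h1
      rw [← Subgroup.relIndex_mul_index (le_sup_left (b := π.ker) : H ≤ H ⊔ π.ker)] at h1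
      exact le_sup_right.trans (Subgroup.relIndex_eq_one.mp
        ((Nat.mul_eq_right Subgroup.index_ne_zero_of_finite).mp h1.symm))
    · rw [sup_eq_left.mpr h] at h1
      exact (Nat.mul_eq_right Subgroup.index_ne_zero_of_finite).mp h1
  rw [← he, NumberField.not_dvd_discr_iff_forall_liesOver F (𝓞 F) (Nat.prime_iff_prime_int.mp hp.out)]
  constructor
  · intro h
    obtain ⟨⟨P, hP₁, hP₂⟩⟩ := pZ.nonempty_primesOver (S := 𝓞 F)
    haveI : P.IsMaximal := .of_liesOver_isMaximal P pZ
    rw [Ideal.ramificationIdxIn_eq_ramificationIdx pZ P Gal(F/ℚ)]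
    exact Ideal.ramificationIdx_eq_one_iff.mpr (h P inferInstance hP₂)
  · intro h P hP hP₂
    rw [← Ideal.ramificationIdx_eq_one_iff,
      ← Ideal.ramificationIdxIn_eq_ramificationIdx pZ P Gal(F/ℚ), h]

end FA.ClassField

end
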